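import Fermat.Agent.S15.LocalN.Relax

/-!
# PROJECT M (S15), (K-N-alg): the inertia invariants at `N` are at least half

`(s - 1)² = 0` on `A` for `s` in the inertia group at `N` gives `# A ≤ (# A^{I_N})²`, hence any
submodule `A0` with `(# A0)² ≤ C² # A` has `# A0 ≤ C * # A^{I_N}`.
-/

set_option autoImplicit false

namespace Fermat.Agent.S15.LocalN.Half

open CategoryTheory
open Fermat.Agent.CFT.LC Fermat.Agent.CFT.Bridge Fermat.Agent.CFT.LocalBridge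
open Fermat.Agent.S56.Coh Fermat.Agent.S56.Tame
open Fermat.Agent.S15.D.RelaxN Fermat.Agent.S15.LocalN.Core Fermat.Agent.S15.LocalN.Relax

variable {k : Type} [CommRing k] {N : ℕ} [Fact N.Prime] {A : Rep.{0} k GQ}

/-- **the defect at `N` is at most half**: `# A ≤ (# A^{I_N})²` -/
theorem card_le_card_invN_sq [Finite A] {P j : ℕ} (hP : P.Prime) (hPN : P ≠ N)
    (hsm : ∃ U ∈ levelsAll.sets, ∀ s ∈ U, ∀ a : A, A.ρ s a = a)
    (hU : ∀ s ∈ Iq N, ∀ a : A, A.ρ s (A.ρ s a) + a = 2 • A.ρ s a)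
    (hA : ∀ a : A, (P ^ j) • a = 0) :
    Nat.card A ≤ Nat.card ↥(invN N A) ^ 2 := by
  obtain ⟨τ, hgen, -⟩ := exists_gen hP hPN hsm hU hA
  have hsq : toZ k A (A.ρ (τ : GQ) - 1) * toZ k A (A.ρ (τ : GQ) - 1) = 0 := by
    refine LinearMap.ext fun x => ?_
    rw [Module.End.mul_apply, toZ_apply, toZ_apply, LinearMap.zero_apply, LinearMap.sub_apply,
      Module.End.one_apply, LinearMap.sub_apply, Module.End.one_apply, map_sub]
    have h := hU τ τ.2 x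
    rw [two_nsmul] at h
    rw [eq_sub_of_add_eq h]
    abel
  have h1 := card_le_card_ker_sq_of_sq hsq
  rwa [card_ker_eq τ hgen] at h1

/-- a submodule with `(# A0)² ≤ C² # A` has `# A0 ≤ C * # A^{I_N}` -/
theorem card_le_mul_card_invN [Finite A] {P j : ℕ} (hP : P.Prime) (hPN : P ≠ N)
    (hsm : ∃ U ∈ levelsAll.sets, ∀ s ∈ U, ∀ a : A, A.ρ s a = a)
    (hU : ∀ s ∈ Iq N, ∀ a : A, A.ρ s (A.ρ s a) + a = 2 • A.ρ s a)
    (hA : ∀ a : A, (P ^ j) • a = 0)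
    (A0 : Submodule k A) (C : ℕ) (h : Nat.card ↥A0 ^ 2 ≤ C ^ 2 * Nat.card A) :
    Nat.card ↥A0 ≤ C * Nat.card ↥(invN N A) := by
  have h1 := card_le_card_invN_sq hP hPN hsm hU hA
  have h2 : Nat.card ↥A0 ^ 2 ≤ (C * Nat.card ↥(invN N A)) ^ 2 := by
    rw [mul_pow]
    exact h.trans (Nat.mul_le_mul_left _ h1)
  exact (Nat.pow_le_pow_iff_left (by norm_num)).1 h2

end Fermat.Agent.S15.LocalN.Half
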