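import Mathlib

/-!
# PROJECT M (S15), block (K-N-alg), CORE: the bookkeeping at the level `N`, pure algebra

`G` is a finite abelian group (in the application `J₀(N)[P^k]` or a Galois-stable direct summand
of it, `P ≠ N`), `φ = s - 1` for a generator `s` of the image of the inertia group at `N`, `F` a
Frobenius lift at `N`, both as endomorphisms of `G`.  Hypotheses (`Hyp N φ F`):

* `sq`   : `φ² = 0`                      (main: `S34/UHyp`);
* `conj` : `F φ = N φ F`           (from `F s F⁻¹ = s ^ N`, main: `S56/Tame/Global`);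
* `poly` : `p(F²) = 0`, `p = (X - 1)² (X - N²)` (main: S35 `NewSigmaHyp` at `M' = 1`);
* `inj`  : multiplication by `N` is injective on `G`.

With `φ = s - 1`, `K = ker φ` (the inertia invariants), `B = range φ`, `Y = F²` and the constant
`bez N = (1 - N²)² (1 - N⁴)²`:

* `bez_smul_range`   : `bez N • (Y b - N² b) = 0` for `b ∈ B`;
* `phi_bez_smul`     : `bez N • (Y x - x) ∈ K` for every `x`;
* `card_le_card_ker_sq` : `|G| ≤ |K|²`                         (the defect at `N` is at most half);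
* `card_ker_le`      : `|K|² ≤ n² |G| → |K| ≤ n² |B|`;
* `card_rel_le`      : `|{x | F x - N x ∈ B}| ≤ n² c^d |B|`     (`= |H¹(I_N, G)^{Frob}|` after division
  by `|B|`: the index of the unramified classes in all local classes at `N`);
* `card_fixedPts_le` : `|{x ∈ K | F x = x}| ≤ n² c^d`           (`= |H⁰(ℚ_N, G)|`);
* `Hyp.restrict`, `hinv_restrict_of_isCompl` : hypotheses and the bound on the invariants pass to
  stable direct summands (the Hecke components `J₀(N)[P^k]_𝔓`),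

where `c = |bez N (N² - 1)|` and `d` bounds the number of generators (`|G[c]| ≤ c^d`).
No Tate module, no determinant, no pairing; every prime `P ≠ N` (also `P = 2`).
-/

set_option autoImplicit false

namespace Fermat.Agent.S15.LocalN.Core

open Polynomial

variable {G : Type*} [AddCommGroup G]

/-- `(X - 1)² (X - N²)` -/
noncomputable def pPoly (N : ℕ) : ℤ[X] := (X - 1) ^ 2 * (X - C ((N : ℤ) ^ 2))

/-- `(X - N²)² (X - N⁴)` -/
noncomputable def qPoly (N : ℕ) : ℤ[X] := (X - C ((N : ℤ) ^ 2)) ^ 2 * (X - C ((N : ℤ) ^ 4))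

/-- the Bezout constant `(1 - N²)² (1 - N⁴)²` -/
def bez (N : ℕ) : ℤ := (1 - (N : ℤ) ^ 2) ^ 2 * (1 - (N : ℤ) ^ 4) ^ 2

/-- Bezout between `p` and `q`: their greatest common divisor `X - N²` up to the constant. -/
theorem bezout (N : ℕ) : ∃ u v : ℤ[X],
    C (bez N) * (X - C ((N : ℤ) ^ 2)) = u * pPoly N + v * qPoly N := by
  refine ⟨(X - 1) ^ 2 + (X - C ((N : ℤ) ^ 2)) * (-X - C ((N : ℤ) ^ 2) + 2)
      + (X - C ((N : ℤ) ^ 4)) * (-X - C ((N : ℤ) ^ 4) + 2),
    (-X - C ((N : ℤ) ^ 2) + 2) * (-X - C ((N : ℤ) ^ 4) + 2), ?_⟩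
  simp only [bez, pPoly, qPoly, map_mul, map_pow, map_sub, map_one]
  ring

/-- the hypotheses -/
structure Hyp (N : ℕ) (φ F : Module.End ℤ G) : Prop where
  sq : φ * φ = 0
  conj : F * φ = (N : ℤ) • (φ * F)
  poly : aeval (F * F) (pPoly N) = 0
  inj : ∀ x : G, (N : ℤ) • x = 0 → x = 0

section Algebra

variable {N : ℕ} {φ F : Module.End ℤ G}

theorem Hyp.sq_mul_phi (h : Hyp N φ F) :
    (F * F) * φ = ((N : ℤ) ^ 2) • (φ * (F * F)) := by
  calc (F * F) * φ = F * (F * φ) := by rw [mul_assoc]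
    _ = F * ((N : ℤ) • (φ * F)) := by rw [h.conj]
    _ = (N : ℤ) • ((F * φ) * F) := by rw [mul_smul_comm, mul_assoc]
    _ = (N : ℤ) • (((N : ℤ) • (φ * F)) * F) := by rw [h.conj]
    _ = ((N : ℤ) ^ 2) • (φ * (F * F)) := by
      rw [smul_mul_assoc, smul_smul, mul_assoc, pow_two]

/-- `(Y - N² a) φ = N² φ (Y - a)` -/
theorem Hyp.sub_mul_phi (h : Hyp N φ F) (a : ℤ) :
    (F * F - ((N : ℤ) ^ 2 * a) • (1 : Module.End ℤ G)) * φ =
      ((N : ℤ) ^ 2) • (φ * (F * F - a • (1 : Module.End ℤ G))) := by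
  have h1 : (F * F - ((N : ℤ) ^ 2 * a) • (1 : Module.End ℤ G)) * φ =
      (F * F) * φ - ((N : ℤ) ^ 2 * a) • φ := by
    rw [sub_mul (F * F), smul_mul_assoc, one_mul]
  have h2 : φ * (F * F - a • (1 : Module.End ℤ G)) =
      φ * (F * F) - a • φ := by
    rw [mul_sub φ, mul_smul_comm, mul_one]
  rw [h1, h2, h.sq_mul_phi]
  module

theorem aeval_pPoly (Y : Module.End ℤ G) :
    aeval Y (pPoly N) = (Y - (1 : ℤ) • (1 : Module.End ℤ G)) * (Y - (1 : ℤ) • (1 : Module.End ℤ G))
      * (Y - ((N : ℤ) ^ 2) • (1 : Module.End ℤ G)) := by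
  unfold pPoly
  rw [map_mul, map_pow, map_sub, map_sub, aeval_X, map_one, aeval_C,
    Algebra.algebraMap_eq_smul_one, one_smul, pow_two]

theorem aeval_qPoly (Y : Module.End ℤ G) :
    aeval Y (qPoly N) = (Y - ((N : ℤ) ^ 2) • (1 : Module.End ℤ G))
      * (Y - ((N : ℤ) ^ 2) • (1 : Module.End ℤ G)) * (Y - ((N : ℤ) ^ 4) • (1 : Module.End ℤ G)) := by
  unfold qPoly
  rw [map_mul, map_pow, map_sub, map_sub, aeval_X, aeval_C, aeval_C,
    Algebra.algebraMap_eq_smul_one, Algebra.algebraMap_eq_smul_one, pow_two]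

/-- `q(Y) φ = N⁶ φ p(Y)` -/
theorem Hyp.aeval_qPoly_mul_phi (h : Hyp N φ F) :
    aeval (F * F) (qPoly N) * φ =
      ((N : ℤ) ^ 6) • (φ * aeval (F * F) (pPoly N)) := by
  have e1 := h.sub_mul_phi 1
  have e2 := h.sub_mul_phi ((N : ℤ) ^ 2)
  rw [mul_one] at e1
  rw [show (N : ℤ) ^ 2 * (N : ℤ) ^ 2 = (N : ℤ) ^ 4 by ring] at e2
  rw [aeval_qPoly, aeval_pPoly]
  set L1 : Module.End ℤ G := F * F - (1 : ℤ) • (1 : Module.End ℤ G) with hL1
  set L2 : Module.End ℤ G := F * F - ((N : ℤ) ^ 2) • (1 : Module.End ℤ G) with hL2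
  set L4 : Module.End ℤ G := F * F - ((N : ℤ) ^ 4) • (1 : Module.End ℤ G) with hL4
  calc L2 * L2 * L4 * φ = L2 * L2 * (L4 * φ) := by rw [mul_assoc]
    _ = L2 * L2 * (((N : ℤ) ^ 2) • (φ * L2)) := by rw [e2]
    _ = ((N : ℤ) ^ 2) • (L2 * (L2 * φ) * L2) := by
      rw [mul_smul_comm, mul_assoc L2 L2, mul_assoc L2 (L2 * φ), mul_assoc L2 φ]
    _ = ((N : ℤ) ^ 2) • (L2 * (((N : ℤ) ^ 2) • (φ * L1)) * L2) := by rw [e1]
    _ = ((N : ℤ) ^ 4) • ((L2 * φ) * L1 * L2) := by
      rw [mul_smul_comm, smul_mul_assoc, smul_smul, mul_assoc L2 φ]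
      congr 1
      ring
    _ = ((N : ℤ) ^ 4) • ((((N : ℤ) ^ 2) • (φ * L1)) * L1 * L2) := by rw [e1]
    _ = ((N : ℤ) ^ 6) • (φ * (L1 * L1 * L2)) := by
      rw [smul_mul_assoc, smul_mul_assoc, smul_smul, mul_assoc φ, mul_assoc φ,
        mul_assoc L1]
      congr 1
      ring

/-- `q(Y)` kills `B = range φ` -/
theorem Hyp.aeval_qPoly_phi (h : Hyp N φ F) (x : G) :
    aeval (F * F) (qPoly N) (φ x) = 0 := by
  have := LinearMap.congr_fun h.aeval_qPoly_mul_phi x
  rw [Module.End.mul_apply, LinearMap.smul_apply, Module.End.mul_apply, h.poly,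
    LinearMap.zero_apply, map_zero, smul_zero] at this
  exact this

/-- **On `B`: `bez N • (Y b - N² b) = 0`.** -/
theorem Hyp.bez_smul_range (h : Hyp N φ F) (x : G) :
    bez N • ((F * F) (φ x) - ((N : ℤ) ^ 2) • (φ x)) = 0 := by
  obtain ⟨u, v, huv⟩ := bezout N
  have h1 : aeval (F * F) (C (bez N) * (X - C ((N : ℤ) ^ 2))) (φ x) =
      aeval (F * F) (u * pPoly N + v * qPoly N) (φ x) := by rw [huv]
  rw [map_add, map_mul, map_mul, map_mul, map_sub, aeval_X, aeval_C, aeval_C,
    Algebra.algebraMap_eq_smul_one, Algebra.algebraMap_eq_smul_one, LinearMap.add_apply,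
    Module.End.mul_apply, Module.End.mul_apply, Module.End.mul_apply, h.poly,
    LinearMap.zero_apply, map_zero, h.aeval_qPoly_phi, map_zero, add_zero,
    LinearMap.smul_apply, Module.End.one_apply, LinearMap.sub_apply, LinearMap.smul_apply,
    Module.End.one_apply] at h1
  exact h1

theorem Hyp.inj_sq (h : Hyp N φ F) (x : G) (hx : ((N : ℤ) ^ 2) • x = 0) : x = 0 := by
  rw [pow_two, mul_smul] at hx
  exact h.inj _ (h.inj _ hx)

/-- **Modulo `K`: `bez N • (Y x - x) ∈ K = ker φ`.** -/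
theorem Hyp.phi_bez_smul (h : Hyp N φ F) (x : G) :
    φ (bez N • ((F * F) x - x)) = 0 := by
  apply h.inj_sq
  have e1 := LinearMap.congr_fun (h.sub_mul_phi 1) x
  rw [mul_one, Module.End.mul_apply, LinearMap.smul_apply, Module.End.mul_apply,
    LinearMap.sub_apply, LinearMap.smul_apply, Module.End.one_apply, LinearMap.sub_apply,
    LinearMap.smul_apply, Module.End.one_apply, one_smul] at e1
  rw [map_smul, smul_comm, ← e1]
  exact h.bez_smul_range x

/-- `B` is stable under `F` -/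
theorem Hyp.F_phi (h : Hyp N φ F) (x : G) : F (φ x) = φ ((N : ℤ) • F x) := by
  have := LinearMap.congr_fun h.conj x
  rw [Module.End.mul_apply, LinearMap.smul_apply, Module.End.mul_apply] at this
  rw [this, map_smul]

theorem Hyp.phi_phi (h : Hyp N φ F) (x : G) : φ (φ x) = 0 := by
  have := LinearMap.congr_fun h.sq x
  rwa [Module.End.mul_apply, LinearMap.zero_apply] at this

end Algebra

section Card

variable {N : ℕ} {φ F : Module.End ℤ G}

/-- Lagrange for a linear map out of a finite module -/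
theorem card_eq_ker_mul_range {M M' : Type*} [AddCommGroup M] [AddCommGroup M']
    (ψ : M →ₗ[ℤ] M') :
    Nat.card M = Nat.card (LinearMap.ker ψ) * Nat.card (LinearMap.range ψ) := by
  rw [Submodule.card_eq_card_quotient_mul_card (LinearMap.ker ψ),
    Nat.card_congr (LinearMap.quotKerEquivRange ψ).toEquiv]

theorem card_le_of_le {M : Type*} [AddCommGroup M] [Finite M] {S T : Submodule ℤ M}
    (h : S ≤ T) : Nat.card S ≤ Nat.card T :=
  Nat.card_le_card_of_injective (Submodule.inclusion h) (Submodule.inclusion_injective h)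

theorem range_le_ker_of_sq (hsq : φ * φ = 0) : LinearMap.range φ ≤ LinearMap.ker φ := by
  rintro _ ⟨x, rfl⟩
  have := LinearMap.congr_fun hsq x
  rw [Module.End.mul_apply, LinearMap.zero_apply] at this
  exact LinearMap.mem_ker.mpr this

theorem Hyp.range_le_ker (h : Hyp N φ F) : LinearMap.range φ ≤ LinearMap.ker φ :=
  range_le_ker_of_sq h.sq

/-- `|G| ≤ |K|²` from `φ² = 0` alone -/
theorem card_le_card_ker_sq_of_sq [Finite G] (hsq : φ * φ = 0) :
    Nat.card G ≤ Nat.card (LinearMap.ker φ) ^ 2 := by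
  rw [card_eq_ker_mul_range φ, pow_two]
  exact Nat.mul_le_mul_left _ (card_le_of_le (range_le_ker_of_sq hsq))

/-- **(i) the defect at `N` is at most half**: `|G| ≤ |K|²`. -/
theorem Hyp.card_le_card_ker_sq [Finite G] (h : Hyp N φ F) :
    Nat.card G ≤ Nat.card (LinearMap.ker φ) ^ 2 :=
  card_le_card_ker_sq_of_sq h.sq

/-- **(ii)** `|K|² ≤ n² |G| → |K| ≤ n² |B|`. -/
theorem card_ker_le [Finite G] (n : ℕ)
    (hinv : Nat.card (LinearMap.ker φ) ^ 2 ≤ n ^ 2 * Nat.card G) :
    Nat.card (LinearMap.ker φ) ≤ n ^ 2 * Nat.card (LinearMap.range φ) := by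
  rw [card_eq_ker_mul_range φ, pow_two] at hinv
  have hpos : 0 < Nat.card (LinearMap.ker φ) := Nat.card_pos
  have : Nat.card (LinearMap.ker φ) * Nat.card (LinearMap.ker φ) ≤
      Nat.card (LinearMap.ker φ) * (n ^ 2 * Nat.card (LinearMap.range φ)) := by
    calc _ ≤ n ^ 2 * (Nat.card (LinearMap.ker φ) * Nat.card (LinearMap.range φ)) := hinv
      _ = _ := by ring
  exact Nat.le_of_mul_le_mul_left this hpos

/-- the constant `|bez N (N² - 1)|` -/
def cst (N : ℕ) : ℕ := (bez N * ((N : ℤ) ^ 2 - 1)).natAbs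

theorem cst_pos (hN : 2 ≤ N) : 0 < cst N := by
  unfold cst bez
  rw [Int.natAbs_pos]
  have h2 : (2 : ℤ) ≤ (N : ℤ) := by exact_mod_cast hN
  have h3 : (1 : ℤ) < (N : ℤ) ^ 2 := by nlinarith
  have h4 : (1 : ℤ) < (N : ℤ) ^ 4 := by nlinarith
  have e1 : (1 : ℤ) - (N : ℤ) ^ 2 ≠ 0 := by omega
  have e2 : (1 : ℤ) - (N : ℤ) ^ 4 ≠ 0 := by omega
  have e3 : (N : ℤ) ^ 2 - 1 ≠ 0 := by omega
  exact mul_ne_zero (mul_ne_zero (pow_ne_zero _ e1) (pow_ne_zero _ e2)) e3

theorem cst_smul_eq_zero {x : G} (hx : (bez N * ((N : ℤ) ^ 2 - 1)) • x = 0) : cst N • x = 0 := by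
  unfold cst
  rcases Int.natAbs_eq (bez N * ((N : ℤ) ^ 2 - 1)) with h | h
  · rw [← natCast_zsmul, ← h]; exact hx
  · have : ((bez N * ((N : ℤ) ^ 2 - 1)).natAbs : ℤ) = -(bez N * ((N : ℤ) ^ 2 - 1)) := by omega
    rw [← natCast_zsmul, this, neg_smul, hx, neg_zero]

/-- the subgroup `{x | F x - N x ∈ B}`; modulo `B` it is `ker (F - N)` on the coinvariants, i.e.
the Frobenius invariants of `H¹(I_N, G)`. -/
def rel (N : ℕ) (φ F : Module.End ℤ G) : Submodule ℤ G :=
  (LinearMap.range φ).comap (F - (N : ℤ) • (1 : Module.End ℤ G))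

theorem mem_rel {x : G} : x ∈ rel N φ F ↔ F x - (N : ℤ) • x ∈ LinearMap.range φ := by
  unfold rel
  rw [Submodule.mem_comap, LinearMap.sub_apply, LinearMap.smul_apply, Module.End.one_apply]

/-- for `x ∈ rel`: `Y x - N² x ∈ B` -/
theorem Hyp.sq_sub_mem_range (h : Hyp N φ F) {x : G} (hx : x ∈ rel N φ F) :
    (F * F) x - ((N : ℤ) ^ 2) • x ∈ LinearMap.range φ := by
  rw [mem_rel] at hx
  obtain ⟨y, hy⟩ := hx
  refine ⟨(N : ℤ) • F y + (N : ℤ) • y, ?_⟩
  have e : (F * F) x - ((N : ℤ) ^ 2) • x = F (F x - (N : ℤ) • x) + (N : ℤ) • (F x - (N : ℤ) • x) := by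
    rw [Module.End.mul_apply, map_sub, map_smul, smul_sub, smul_smul, pow_two]
    abel
  rw [e, ← hy, h.F_phi, map_add, map_smul, map_smul]

/-- for `x ∈ rel`: `cst N • φ x = 0` -/
theorem Hyp.cst_smul_phi (h : Hyp N φ F) {x : G} (hx : x ∈ rel N φ F) : cst N • φ x = 0 := by
  apply cst_smul_eq_zero
  obtain ⟨y, hy⟩ := h.sq_sub_mem_range hx
  have h1 : φ ((F * F) x - ((N : ℤ) ^ 2) • x) = 0 := by rw [← hy]; exact h.phi_phi y
  have h2 := h.phi_bez_smul x
  have e : (bez N * ((N : ℤ) ^ 2 - 1)) • φ x =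
      φ (bez N • ((F * F) x - x)) - bez N • φ ((F * F) x - ((N : ℤ) ^ 2) • x) := by
    rw [map_smul, map_sub, map_sub, map_smul, mul_smul, sub_smul, one_smul]
    module
  rw [e, h1, h2, smul_zero, sub_zero]

/-- **(iv)** `|{x | F x - N x ∈ B}| ≤ n² c^d |B|`. -/
theorem Hyp.card_rel_le [Finite G] (h : Hyp N φ F) (n d : ℕ)
    (hinv : Nat.card (LinearMap.ker φ) ^ 2 ≤ n ^ 2 * Nat.card G)
    (htors : Nat.card {x : G // cst N • x = 0} ≤ cst N ^ d) :
    Nat.card (rel N φ F) ≤ n ^ 2 * cst N ^ d * Nat.card (LinearMap.range φ) := by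
  obtain ⟨ψ, hψ⟩ : ∃ ψ : rel N φ F →ₗ[ℤ] G, ∀ x, ψ x = φ (x : G) :=
    ⟨φ.comp (rel N φ F).subtype, fun _ => rfl⟩
  rw [card_eq_ker_mul_range ψ]
  have h1 : Nat.card (LinearMap.ker ψ) ≤ Nat.card (LinearMap.ker φ) := by
    refine Nat.card_le_card_of_injective
      (fun x => (⟨(x : rel N φ F), by
        have := x.2
        rw [LinearMap.mem_ker, hψ] at this
        exact LinearMap.mem_ker.mpr this⟩ : LinearMap.ker φ)) ?_
    intro x y hxy
    have := congrArg (fun z : LinearMap.ker φ => (z : G)) hxy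
    exact Subtype.ext (Subtype.ext this)
  have h2 : Nat.card (LinearMap.range ψ) ≤ cst N ^ d := by
    refine le_trans (Nat.card_le_card_of_injective
      (fun x => (⟨(x : G), by
        obtain ⟨y, hy⟩ := x.2
        rw [← hy, hψ]
        exact h.cst_smul_phi y.2⟩ : {x : G // cst N • x = 0})) ?_) htors
    intro x y hxy
    have := congrArg (fun z : {x : G // cst N • x = 0} => (z : G)) hxy
    exact Subtype.ext this
  calc Nat.card (LinearMap.ker ψ) * Nat.card (LinearMap.range ψ)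
      ≤ (n ^ 2 * Nat.card (LinearMap.range φ)) * cst N ^ d :=
        Nat.mul_le_mul (h1.trans (card_ker_le n hinv)) h2
    _ = _ := by ring

/-- the fixed points of inertia and Frobenius: `H⁰(ℚ_N, G)` -/
def fixedPts (φ F : Module.End ℤ G) : Submodule ℤ G :=
  LinearMap.ker φ ⊓ LinearMap.ker (F - (1 : Module.End ℤ G))

theorem mem_fixedPts {x : G} : x ∈ fixedPts φ F ↔ φ x = 0 ∧ F x = x := by
  unfold fixedPts
  rw [Submodule.mem_inf, LinearMap.mem_ker, LinearMap.mem_ker, LinearMap.sub_apply,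
    Module.End.one_apply, sub_eq_zero]

/-- a fixed point in `B` is killed by the constant -/
theorem Hyp.cst_smul_of_fixed (h : Hyp N φ F) {x : G} (hx : x ∈ LinearMap.range φ)
    (hF : F x = x) : cst N • x = 0 := by
  apply cst_smul_eq_zero
  obtain ⟨y, rfl⟩ := hx
  have h1 := h.bez_smul_range y
  rw [Module.End.mul_apply, hF, hF] at h1
  have e : (bez N * ((N : ℤ) ^ 2 - 1)) • φ y = -(bez N • (φ y - ((N : ℤ) ^ 2) • φ y)) := by
    module
  rw [e, h1, neg_zero]

/-- `|K / B| ≤ n²`, as the cardinality of the image of `K` in `G ⧸ B` -/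
theorem Hyp.card_range_mkQ_le [Finite G] (h : Hyp N φ F) (n : ℕ)
    (hinv : Nat.card (LinearMap.ker φ) ^ 2 ≤ n ^ 2 * Nat.card G) :
    Nat.card (LinearMap.range ((LinearMap.range φ).mkQ.comp (LinearMap.ker φ).subtype)) ≤ n ^ 2 := by
  set χ : LinearMap.ker φ →ₗ[ℤ] G ⧸ LinearMap.range φ :=
    (LinearMap.range φ).mkQ.comp (LinearMap.ker φ).subtype
  have h0 := card_eq_ker_mul_range χ
  have h1 : Nat.card (LinearMap.range φ) ≤ Nat.card (LinearMap.ker χ) := by
    refine Nat.card_le_card_of_injective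
      (fun b => (⟨⟨(b : G), h.range_le_ker b.2⟩, by
        rw [LinearMap.mem_ker]
        show (LinearMap.range φ).mkQ (b : G) = 0
        rw [Submodule.mkQ_apply, Submodule.Quotient.mk_eq_zero]
        exact b.2⟩ : LinearMap.ker χ)) ?_
    intro x y hxy
    have := congrArg (fun z : LinearMap.ker χ => ((z : LinearMap.ker φ) : G)) hxy
    exact Subtype.ext this
  have h2 := card_ker_le n hinv
  have hpos : 0 < Nat.card (LinearMap.range φ) := Nat.card_pos
  have h3 : Nat.card (LinearMap.range φ) * Nat.card (LinearMap.range χ) ≤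
      Nat.card (LinearMap.range φ) * n ^ 2 := by
    calc Nat.card (LinearMap.range φ) * Nat.card (LinearMap.range χ)
        ≤ Nat.card (LinearMap.ker χ) * Nat.card (LinearMap.range χ) :=
          Nat.mul_le_mul_right _ h1
      _ = Nat.card (LinearMap.ker φ) := h0.symm
      _ ≤ n ^ 2 * Nat.card (LinearMap.range φ) := h2
      _ = _ := by ring
  exact Nat.le_of_mul_le_mul_left h3 hpos

/-- **(v)** `|{x ∈ K | F x = x}| ≤ n² c^d`. -/
theorem Hyp.card_fixedPts_le [Finite G] (h : Hyp N φ F) (n d : ℕ)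
    (hinv : Nat.card (LinearMap.ker φ) ^ 2 ≤ n ^ 2 * Nat.card G)
    (htors : Nat.card {x : G // cst N • x = 0} ≤ cst N ^ d) :
    Nat.card (fixedPts φ F) ≤ n ^ 2 * cst N ^ d := by
  obtain ⟨θ, hθ⟩ : ∃ θ : fixedPts φ F →ₗ[ℤ] G ⧸ LinearMap.range φ,
      ∀ x, θ x = (LinearMap.range φ).mkQ (x : G) :=
    ⟨(LinearMap.range φ).mkQ.comp (fixedPts φ F).subtype, fun _ => rfl⟩
  rw [card_eq_ker_mul_range θ]
  have h1 : Nat.card (LinearMap.ker θ) ≤ cst N ^ d := by
    refine le_trans (Nat.card_le_card_of_injective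
      (fun x => (⟨((x : fixedPts φ F) : G), by
        have hx := x.2
        rw [LinearMap.mem_ker, hθ, Submodule.mkQ_apply, Submodule.Quotient.mk_eq_zero] at hx
        exact h.cst_smul_of_fixed hx (mem_fixedPts.mp (x : fixedPts φ F).2).2⟩ :
          {x : G // cst N • x = 0})) ?_) htors
    intro x y hxy
    have := congrArg (fun z : {x : G // cst N • x = 0} => (z : G)) hxy
    exact Subtype.ext (Subtype.ext this)
  have h2 : Nat.card (LinearMap.range θ) ≤ n ^ 2 := by
    have : Finite (G ⧸ LinearMap.range φ) := Quotient.finite _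
    refine le_trans (card_le_of_le ?_) (h.card_range_mkQ_le n hinv)
    rintro _ ⟨x, rfl⟩
    refine ⟨⟨(x : G), LinearMap.mem_ker.mpr (mem_fixedPts.mp x.2).1⟩, ?_⟩
    rw [hθ]
    rfl
  calc Nat.card (LinearMap.ker θ) * Nat.card (LinearMap.range θ) ≤ cst N ^ d * n ^ 2 :=
        Nat.mul_le_mul h1 h2
    _ = _ := by ring

end Card

section Restrict

variable {N : ℕ} {φ F : Module.End ℤ G}

theorem coe_aeval_restrict (Y : Module.End ℤ G) (M : Submodule ℤ G) (hY : ∀ x ∈ M, Y x ∈ M)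
    (p : ℤ[X]) (x : M) :
    ((aeval (Y.restrict hY) p x : M) : G) = aeval Y p (x : G) := by
  induction p using Polynomial.induction_on generalizing x with
  | C a =>
    rw [aeval_C, aeval_C, Algebra.algebraMap_eq_smul_one, Algebra.algebraMap_eq_smul_one,
      LinearMap.smul_apply, LinearMap.smul_apply, Module.End.one_apply, Module.End.one_apply,
      Submodule.coe_smul]
  | add p q hp hq =>
    rw [map_add, map_add, LinearMap.add_apply, LinearMap.add_apply, Submodule.coe_add, hp, hq]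
  | monomial n a ih =>
    rw [pow_succ, ← mul_assoc, map_mul (aeval (Y.restrict hY)) (C a * X ^ n) X,
      map_mul (aeval Y) (C a * X ^ n) X, aeval_X, aeval_X, Module.End.mul_apply,
      Module.End.mul_apply, ih, LinearMap.coe_restrict_apply]

/-- **the hypotheses pass to stable submodules** (Galois-stable direct summands of `J₀(N)[P^k]`) -/
theorem Hyp.restrict (h : Hyp N φ F) (M : Submodule ℤ G) (hφ : ∀ x ∈ M, φ x ∈ M)
    (hF : ∀ x ∈ M, F x ∈ M) : Hyp N (φ.restrict hφ) (F.restrict hF) where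
  sq := by
    apply LinearMap.ext
    intro x
    apply Subtype.ext
    rw [Module.End.mul_apply, LinearMap.coe_restrict_apply, LinearMap.coe_restrict_apply,
      LinearMap.zero_apply, Submodule.coe_zero]
    exact h.phi_phi x
  conj := by
    apply LinearMap.ext
    intro x
    apply Subtype.ext
    have := LinearMap.congr_fun h.conj (x : G)
    rw [Module.End.mul_apply, LinearMap.smul_apply, Module.End.mul_apply] at this
    rw [Module.End.mul_apply, LinearMap.smul_apply, Module.End.mul_apply,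
      LinearMap.coe_restrict_apply, LinearMap.coe_restrict_apply, Submodule.coe_smul,
      LinearMap.coe_restrict_apply, LinearMap.coe_restrict_apply]
    exact this
  poly := by
    have hY : ∀ x ∈ M, (F * F) x ∈ M := fun x hx => hF _ (hF _ hx)
    have e : F.restrict hF * F.restrict hF = (F * F).restrict hY := by
      apply LinearMap.ext
      intro x
      apply Subtype.ext
      rfl
    apply LinearMap.ext
    intro x
    apply Subtype.ext
    rw [e, coe_aeval_restrict, h.poly, LinearMap.zero_apply, LinearMap.zero_apply,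
      Submodule.coe_zero]
  inj := by
    intro x hx
    apply Subtype.ext
    have := congrArg (fun z : M => (z : G)) hx
    simp only [Submodule.coe_smul, Submodule.coe_zero] at this
    rw [Submodule.coe_zero]
    exact h.inj _ this

/-- **the bound on the invariants passes to stable direct summands**: if `G = M ⊕ M'` with both
summands stable under `φ`, `φ² = 0` and `|ker φ|² ≤ n² |G|`, then `|ker φ|_M|² ≤ n² |M|`. -/
theorem hinv_restrict_of_isCompl [Finite G] {M M' : Submodule ℤ G} (hc : IsCompl M M')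
    (hφ : ∀ x ∈ M, φ x ∈ M) (hφ' : ∀ x ∈ M', φ x ∈ M') (hsq : φ * φ = 0) (n : ℕ)
    (hinv : Nat.card (LinearMap.ker φ) ^ 2 ≤ n ^ 2 * Nat.card G) :
    Nat.card (LinearMap.ker (φ.restrict hφ)) ^ 2 ≤ n ^ 2 * Nat.card M := by
  set K1 := Nat.card (LinearMap.ker (φ.restrict hφ)) with hK1
  set K2 := Nat.card (LinearMap.ker (φ.restrict hφ')) with hK2
  -- `|G| = |M| |M'|`
  have hG : Nat.card G = Nat.card M * Nat.card M' := by
    rw [← Nat.card_prod]
    exact (Nat.card_congr (Submodule.prodEquivOfIsCompl M M' hc).toEquiv).symm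
  -- `|K₁| |K₂| ≤ |K|`
  have hK : K1 * K2 ≤ Nat.card (LinearMap.ker φ) := by
    rw [hK1, hK2, ← Nat.card_prod]
    refine Nat.card_le_card_of_injective
      (fun z => (⟨((z.1 : M) : G) + ((z.2 : M') : G), by
        rw [LinearMap.mem_ker, map_add]
        have h1 := z.1.2
        have h2 := z.2.2
        rw [LinearMap.mem_ker] at h1 h2
        have e1 := congrArg (fun w : M => (w : G)) h1
        have e2 := congrArg (fun w : M' => (w : G)) h2
        simp only [LinearMap.coe_restrict_apply, Submodule.coe_zero] at e1 e2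
        rw [e1, e2, add_zero]⟩ : LinearMap.ker φ)) ?_
    rintro ⟨x, y⟩ ⟨x', y'⟩ hxy
    have e := congrArg (fun w : LinearMap.ker φ => (w : G)) hxy
    simp only at e
    have e' : ((x : M) : G) - ((x' : M) : G) = ((y' : M') : G) - ((y : M') : G) := by
      rw [sub_eq_sub_iff_add_eq_add]
      rw [e]
      abel
    have hm : ((x : M) : G) - ((x' : M) : G) ∈ M ⊓ M' := by
      refine ⟨M.sub_mem (x : M).2 (x' : M).2, ?_⟩
      rw [e']
      exact M'.sub_mem (y' : M').2 (y : M').2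
    rw [hc.inf_eq_bot, Submodule.mem_bot] at hm
    have hx : ((x : M) : G) = ((x' : M) : G) := sub_eq_zero.mp hm
    have hy : ((y : M') : G) = ((y' : M') : G) := by
      rw [hm] at e'
      exact (sub_eq_zero.mp e'.symm).symm
    exact Prod.ext (Subtype.ext (Subtype.ext hx)) (Subtype.ext (Subtype.ext hy))
  -- `|M'| ≤ |K₂|²`
  have hsq' : φ.restrict hφ' * φ.restrict hφ' = 0 := by
    apply LinearMap.ext
    intro x
    apply Subtype.ext
    have := LinearMap.congr_fun hsq (x : G)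
    rw [Module.End.mul_apply, LinearMap.zero_apply] at this
    rw [Module.End.mul_apply, LinearMap.coe_restrict_apply, LinearMap.coe_restrict_apply,
      LinearMap.zero_apply, Submodule.coe_zero]
    exact this
  have hM' : Nat.card M' ≤ K2 ^ 2 := card_le_card_ker_sq_of_sq hsq'
  have hK2pos : 0 < K2 := Nat.card_pos
  have h1 : K1 ^ 2 * K2 ^ 2 ≤ n ^ 2 * Nat.card M * K2 ^ 2 := by
    calc K1 ^ 2 * K2 ^ 2 = (K1 * K2) ^ 2 := by ring
      _ ≤ Nat.card (LinearMap.ker φ) ^ 2 := Nat.pow_le_pow_left hK 2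
      _ ≤ n ^ 2 * Nat.card G := hinv
      _ = n ^ 2 * Nat.card M * Nat.card M' := by rw [hG]; ring
      _ ≤ n ^ 2 * Nat.card M * K2 ^ 2 := Nat.mul_le_mul_left _ hM'
  exact Nat.le_of_mul_le_mul_right h1 (pow_pos hK2pos 2)

end Restrict

end Fermat.Agent.S15.LocalN.Core
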