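import Fermat.Agent.S15.D.RelaxN
import Fermat.Agent.S15.LocalN.Core

/-!
# PROJECT M (S15), the junction of (T-N) and (K-N-alg): relaxing the condition at `N` costs a
constant

`A : Rep k GQ` finite, killed by a power of `P ≠ N`, smooth, the inertia group at `N` unipotent of
level two on `A` (`(U)`), `φ` a Frobenius lift at the fixed place over `N` with
`p(ρ(φ)²) = 0`, `p = (X - 1)² (X - N²)`, `|A^{I_N}|² ≤ n² |A|`, `|A[c]| ≤ c^d` for
`c = cst N`.  Then for EVERY submodule `T ≤ Z1g A` of global cocycles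

  `# T ≤ n² c^d * # (T unramified at N)`.

`D/RelaxN` gives `# T ≤ # (T unramified at N) * # ker (ρ(φ) - N on A ⧸ B)`, `B = Σ (s - 1) A`;
here a uniform generator `τ` of the image of the inertia group gives `B = (τ - 1) A` and the
hypotheses `Core.Hyp N (ρ(τ) - 1) ρ(φ)`, and `ker (ρ(φ) - N on A ⧸ B) = rel ⧸ B` is counted by
`Core.Hyp.card_rel_le`.
-/

set_option autoImplicit false

namespace Fermat.Agent.S15.LocalN.Relax

open CategoryTheory Polynomial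
open Fermat.Agent.CFT.LC Fermat.Agent.CFT.Bridge Fermat.Agent.CFT.LocalBridge
open Fermat.Agent.S56.Coh Fermat.Agent.S56.Tame
open Fermat.Agent.S15.D.RelaxN Fermat.Agent.S15.LocalN.Core

/-! ### Restriction of scalars to `ℤ` on endomorphisms -/

section Scalars

variable (k M : Type) [CommRing k] [AddCommGroup M] [Module k M]

/-- restriction of scalars to `ℤ` on endomorphisms, as a ring homomorphism -/
def toZ : Module.End k M →+* Module.End ℤ M where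
  toFun f := f.toAddMonoidHom.toIntLinearMap
  map_one' := rfl
  map_mul' _ _ := rfl
  map_zero' := rfl
  map_add' _ _ := rfl

variable {k M}

theorem toZ_apply (f : Module.End k M) (x : M) : toZ k M f x = f x := rfl

theorem aeval_toZ (f : Module.End k M) (p : ℤ[X]) :
    aeval (toZ k M f) p = toZ k M (aeval f p) :=
  Polynomial.aeval_algHom_apply (toZ k M).toIntAlgHom f p

end Scalars

/-! ### The generator of the image of inertia and the Frobenius relation -/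

section Gen

variable {k : Type} [CommRing k] {N : ℕ} [Fact N.Prime] {A : Rep.{0} k GQ}

/-- **a generator `τ` of the image of the inertia group at `N` on `A`, with the relation
`ρ(φ) ρ(τ) = ρ(τ) ^ N ρ(φ)` for every Frobenius lift `φ`** -/
theorem exists_gen {P j : ℕ} (hP : P.Prime) (hPN : P ≠ N)
    (hsm : ∃ U ∈ levelsAll.sets, ∀ s ∈ U, ∀ a : A, A.ρ s a = a)
    (hU : ∀ s ∈ IN N, ∀ a : A, A.ρ s (A.ρ s a) + a = 2 • A.ρ s a)
    (hA : ∀ a : A, (P ^ j) • a = 0) :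
    ∃ τ : ↥(IN N), (∀ s ∈ IN N, ∃ m : ℕ, A.ρ s = A.ρ (τ : GQ) ^ m) ∧
      ∀ φ : GQ, (padicPlace N).IsFrobeniusAt φ N →
        A.ρ φ * A.ρ (τ : GQ) = A.ρ (τ : GQ) ^ N * A.ρ φ := by
  have hN : N.Prime := Fact.out
  obtain ⟨U, ⟨hUn, F, hFfin, rfl⟩, hUA⟩ := hsm
  have : FiniteDimensional ℚ F := hFfin
  have : IsGalois ℚ F := (InfiniteGalois.normal_iff_isGalois F).1 hUn
  obtain ⟨τ, hτ⟩ := exists_generator_inertia_uniform.{0, 0} F hN
    (liesOverPrime_padicPlace N) hP hPN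
  have hz : IsCocI N A (fun _ => (0 : A)) := isCocI_zero
  have htr : ∀ σ : ↥(IN N), (σ : GQ) ∈ F.fixingSubgroup →
      affHom (fun _ => (0 : A)) hz σ = 1 :=
    fun σ hσ => affHom_eq_one hz (fun _ _ => rfl) hUA σ hσ
  have hpg := isPGroup_range_affHom (fun _ => (0 : A)) hz hU hA
  have hpow : ∀ (m : ℕ) (x : A),
      (affHom (fun _ => (0 : A)) hz τ ^ m) x = (A.ρ (τ : GQ) ^ m) x := by
    intro m x
    change (aff A.ρ (τ : GQ) 0 ^ m) x = _
    rw [aff_pow_apply, Finset.sum_eq_zero (fun i _ => map_zero _), add_zero]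
  refine ⟨τ, fun s hs => ?_, fun φ hφ => ?_⟩
  · obtain ⟨m, hm⟩ := hτ (Equiv.Perm A) _ htr hpg ⟨s, hs⟩
    refine ⟨m, LinearMap.ext fun a => ?_⟩
    have h2 := congrArg (fun e : Equiv.Perm A => e a) hm
    rw [hpow] at h2
    rw [← h2, affHom_apply, add_zero]
  · have h1 := map_conj_eq_pow F hN (liesOverPrime_padicPlace N) hP hPN _ htr hpg hφ τ
    refine LinearMap.ext fun x => ?_
    have h2 := congrArg (fun e : Equiv.Perm A => e (A.ρ φ x)) h1
    rw [hpow] at h2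
    rw [Module.End.mul_apply, Module.End.mul_apply, ← h2, affHom_apply, add_zero]
    change _ = A.ρ (φ * (τ : GQ) * φ⁻¹) (A.ρ φ x)
    rw [← Module.End.mul_apply, ← Module.End.mul_apply, ← map_mul, ← map_mul,
      inv_mul_cancel_right]

/-- the hypotheses of `LocalN/Core` for `ρ(τ) - 1` and `ρ(φ)` -/
theorem hyp_of_gen {P j : ℕ} (hP : P.Prime) (hPN : P ≠ N)
    (hU : ∀ s ∈ IN N, ∀ a : A, A.ρ s (A.ρ s a) + a = 2 • A.ρ s a)
    (hA : ∀ a : A, (P ^ j) • a = 0) (τ : ↥(IN N)) {φ : GQ}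
    (hconj : A.ρ φ * A.ρ (τ : GQ) = A.ρ (τ : GQ) ^ N * A.ρ φ)
    (hpoly : aeval (toZ k A (A.ρ φ) * toZ k A (A.ρ φ)) (pPoly N) = 0) :
    Hyp N (toZ k A (A.ρ (τ : GQ) - 1)) (toZ k A (A.ρ φ)) where
  sq := by
    refine LinearMap.ext fun x => ?_
    rw [Module.End.mul_apply, toZ_apply, toZ_apply, LinearMap.zero_apply, LinearMap.sub_apply,
      Module.End.one_apply, LinearMap.sub_apply, Module.End.one_apply, map_sub]
    have h := hU τ τ.2 x
    rw [two_nsmul] at h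
    rw [eq_sub_of_add_eq h]
    abel
  conj := by
    refine LinearMap.ext fun x => ?_
    rw [Module.End.mul_apply, LinearMap.smul_apply, Module.End.mul_apply, toZ_apply, toZ_apply,
      toZ_apply, toZ_apply, LinearMap.sub_apply, Module.End.one_apply, LinearMap.sub_apply,
      Module.End.one_apply, map_sub]
    have h1 := LinearMap.congr_fun hconj x
    rw [Module.End.mul_apply, Module.End.mul_apply,
      unip_pow_apply (A.ρ (τ : GQ)) (hU τ τ.2) N (A.ρ φ x)] at h1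
    rw [h1, add_sub_cancel_left, natCast_zsmul]
  poly := hpoly
  inj := by
    intro x hx
    have hN : N.Prime := Fact.out
    have hcop : IsCoprime (N : ℤ) ((P ^ j : ℕ) : ℤ) :=
      Nat.isCoprime_iff_coprime.2 (Nat.Coprime.pow_right j ((Nat.coprime_primes hN hP).2 hPN.symm))
    obtain ⟨u, v, huv⟩ := hcop
    calc x = (1 : ℤ) • x := (one_smul _ _).symm
      _ = (u * (N : ℤ) + v * ((P ^ j : ℕ) : ℤ)) • x := by rw [huv]
      _ = u • ((N : ℤ) • x) + v • (((P ^ j : ℕ) : ℤ) • x) := by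
        rw [add_smul, mul_smul, mul_smul]
      _ = 0 := by rw [hx, natCast_zsmul, hA, smul_zero, smul_zero, add_zero]

/-- `B = (τ - 1) A` -/
theorem mem_BN_iff (τ : ↥(IN N)) (hgen : ∀ s ∈ IN N, ∃ m : ℕ, A.ρ s = A.ρ (τ : GQ) ^ m)
    (x : A) : x ∈ BN N A ↔ x ∈ LinearMap.range (toZ k A (A.ρ (τ : GQ) - 1)) := by
  constructor
  · intro hx
    have hB : BN N A ≤ LinearMap.range (A.ρ (τ : GQ) - 1) := by
      rw [BN, Submodule.span_le]
      rintro x ⟨s, hs, a, rfl⟩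
      obtain ⟨m, hm⟩ := hgen s hs
      rw [SetLike.mem_coe, LinearMap.mem_range]
      refine ⟨(∑ i ∈ Finset.range m, A.ρ (τ : GQ) ^ i) a, ?_⟩
      rw [← Module.End.mul_apply, mul_geom_sum, hm, LinearMap.sub_apply, Module.End.one_apply]
    obtain ⟨y, hy⟩ := hB hx
    exact ⟨y, hy⟩
  · rintro ⟨y, rfl⟩
    rw [toZ_apply, LinearMap.sub_apply, Module.End.one_apply]
    exact sub_mem_BN τ.2 y

end Gen

/-! ### The invariants of inertia -/

section Inv

variable {k : Type} [CommRing k] (N : ℕ) [Fact N.Prime] (A : Rep.{0} k GQ)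

/-- the invariants of the inertia group at `N` -/
def invN : Submodule k A where
  carrier := {a | ∀ s ∈ Iq N, A.ρ s a = a}
  add_mem' := fun ha hb s hs => by rw [map_add, ha s hs, hb s hs]
  zero_mem' := fun s _ => map_zero _
  smul_mem' := fun r _ ha s hs => by rw [map_smul, ha s hs]

variable {N A}

theorem mem_invN {a : A} : a ∈ invN N A ↔ ∀ s ∈ Iq N, A.ρ s a = a := Iff.rfl

theorem card_ker_eq (τ : ↥(IN N)) (hgen : ∀ s ∈ IN N, ∃ m : ℕ, A.ρ s = A.ρ (τ : GQ) ^ m) :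
    Nat.card ↥(LinearMap.ker (toZ k A (A.ρ (τ : GQ) - 1))) = Nat.card ↥(invN N A) := by
  refine Nat.card_congr (Equiv.subtypeEquivRight fun a => ?_)
  rw [LinearMap.mem_ker, toZ_apply, LinearMap.sub_apply, Module.End.one_apply, sub_eq_zero,
    mem_invN]
  constructor
  · intro h s hs
    obtain ⟨m, hm⟩ := hgen s hs
    rw [hm, Module.End.pow_apply]
    exact Function.iterate_fixed h m
  · intro h
    exact h τ τ.2

end Inv

/-! ### `ker (ρ(φ) - N on A ⧸ B) = rel ⧸ B` -/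

section Count

variable {k : Type} [CommRing k] {N : ℕ} [Fact N.Prime] {A : Rep.{0} k GQ}

theorem mk_mem_KN_iff {φ : GQ} (hφ : φ ∈ (padicPlace N).decompositionSubgroup ℚ) (x : A) :
    (BN N A).mkQ x ∈ KN hφ ↔ A.ρ φ x - N • x ∈ BN N A := by
  rw [KN, LinearMap.mem_ker, LinearMap.sub_apply, LinearMap.smul_apply, LinearMap.id_apply,
    quotEnd, Submodule.mkQ_apply, Submodule.mapQ_apply, ← Submodule.Quotient.mk_smul,
    ← Submodule.Quotient.mk_sub, Submodule.Quotient.mk_eq_zero]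

theorem mem_rel_iff (τ : ↥(IN N)) (hgen : ∀ s ∈ IN N, ∃ m : ℕ, A.ρ s = A.ρ (τ : GQ) ^ m)
    {φ : GQ} (hφ : φ ∈ (padicPlace N).decompositionSubgroup ℚ) (x : A) :
    x ∈ rel N (toZ k A (A.ρ (τ : GQ) - 1)) (toZ k A (A.ρ φ)) ↔ (BN N A).mkQ x ∈ KN hφ := by
  rw [mem_rel, mk_mem_KN_iff, mem_BN_iff τ hgen, toZ_apply, natCast_zsmul]

/-- `# rel = # B * # ker (ρ(φ) - N on A ⧸ B)` -/
theorem card_rel_eq (τ : ↥(IN N)) (hgen : ∀ s ∈ IN N, ∃ m : ℕ, A.ρ s = A.ρ (τ : GQ) ^ m)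
    {φ : GQ} (hφ : φ ∈ (padicPlace N).decompositionSubgroup ℚ) :
    Nat.card ↥(rel N (toZ k A (A.ρ (τ : GQ) - 1)) (toZ k A (A.ρ φ))) =
      Nat.card ↥(LinearMap.range (toZ k A (A.ρ (τ : GQ) - 1))) *
        Nat.card ↥(KN (A := A) hφ) := by
  set φe : Module.End ℤ A := toZ k A (A.ρ (τ : GQ) - 1) with hφe
  set Fe : Module.End ℤ A := toZ k A (A.ρ φ) with hFe
  obtain ⟨g, hg⟩ : ∃ g : ↥(rel N φe Fe) →ₗ[ℤ] (A ⧸ BN N A), ∀ x, g x = (BN N A).mkQ (x : A) :=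
    ⟨((BN N A).mkQ.toAddMonoidHom.toIntLinearMap).comp (rel N φe Fe).subtype, fun _ => rfl⟩
  rw [card_eq_ker_mul_range g]
  have hB0 : ∀ b : A, b ∈ LinearMap.range φe → (BN N A).mkQ b = 0 := fun b hb => by
    rw [Submodule.mkQ_apply, Submodule.Quotient.mk_eq_zero]
    exact (mem_BN_iff τ hgen b).2 hb
  have e1 : ↥(LinearMap.ker g) ≃ ↥(LinearMap.range φe) :=
    { toFun := fun x => ⟨(x.1 : A), by
        have hx := x.2
        rw [LinearMap.mem_ker, hg, Submodule.mkQ_apply, Submodule.Quotient.mk_eq_zero] at hx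
        exact (mem_BN_iff τ hgen _).1 hx⟩
      invFun := fun b => ⟨⟨b.1, (mem_rel_iff τ hgen hφ b.1).2 (by
          rw [hB0 b.1 b.2]; exact Submodule.zero_mem _)⟩, by
        rw [LinearMap.mem_ker, hg]
        exact hB0 b.1 b.2⟩
      left_inv := fun _ => rfl
      right_inv := fun _ => rfl }
  have e2 : ↥(LinearMap.range g) ≃ ↥(KN (A := A) hφ) :=
    Equiv.subtypeEquivRight fun y => by
      rw [LinearMap.mem_range]
      constructor
      · rintro ⟨x, rfl⟩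
        rw [hg]
        exact (mem_rel_iff τ hgen hφ x.1).1 x.2
      · intro hy
        obtain ⟨x, rfl⟩ := Submodule.mkQ_surjective (BN N A) y
        exact ⟨⟨x, (mem_rel_iff τ hgen hφ x).2 hy⟩, hg _⟩
  rw [Nat.card_congr e1, Nat.card_congr e2]

end Count

/-! ### The main statements -/

section Main

variable {k : Type} [CommRing k] {N : ℕ} [Fact N.Prime] {A : Rep.{0} k GQ}

/-- **(K-N-alg)(iv) for `A`: `# ker (ρ(φ) - N on A ⧸ B) ≤ n² c^d`**, the polynomial hypothesis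
over `ℤ`. -/
theorem card_KN_le_of_toZ [Finite A] {P j : ℕ} (hP : P.Prime) (hPN : P ≠ N)
    (hsm : ∃ U ∈ levelsAll.sets, ∀ s ∈ U, ∀ a : A, A.ρ s a = a)
    (hU : ∀ s ∈ Iq N, ∀ a : A, A.ρ s (A.ρ s a) + a = 2 • A.ρ s a)
    (hA : ∀ a : A, (P ^ j) • a = 0)
    {φ : GQ} (hφ : (padicPlace N).IsFrobeniusAt φ N)
    (hpoly : aeval (toZ k A (A.ρ φ) * toZ k A (A.ρ φ)) (pPoly N) = 0)
    (n d : ℕ) (hinv : Nat.card ↥(invN N A) ^ 2 ≤ n ^ 2 * Nat.card A)
    (htors : Nat.card {x : A // cst N • x = 0} ≤ cst N ^ d) :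
    Nat.card ↥(KN (A := A) hφ.mem_decompositionSubgroup) ≤ n ^ 2 * cst N ^ d := by
  obtain ⟨τ, hgen, hconj⟩ := exists_gen hP hPN hsm hU hA
  have hH := hyp_of_gen hP hPN hU hA τ (hconj φ hφ) hpoly
  have h1 := hH.card_rel_le n d (by rw [card_ker_eq τ hgen]; exact hinv) htors
  rw [card_rel_eq τ hgen hφ.mem_decompositionSubgroup, mul_comm (n ^ 2 * cst N ^ d)] at h1
  exact Nat.le_of_mul_le_mul_left h1 Nat.card_pos

/-- the same with the polynomial hypothesis in `Module.End k A` -/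
theorem card_KN_le [Finite A] {P j : ℕ} (hP : P.Prime) (hPN : P ≠ N)
    (hsm : ∃ U ∈ levelsAll.sets, ∀ s ∈ U, ∀ a : A, A.ρ s a = a)
    (hU : ∀ s ∈ Iq N, ∀ a : A, A.ρ s (A.ρ s a) + a = 2 • A.ρ s a)
    (hA : ∀ a : A, (P ^ j) • a = 0)
    {φ : GQ} (hφ : (padicPlace N).IsFrobeniusAt φ N)
    (hpoly : aeval (A.ρ φ * A.ρ φ) (pPoly N) = 0)
    (n d : ℕ) (hinv : Nat.card ↥(invN N A) ^ 2 ≤ n ^ 2 * Nat.card A)
    (htors : Nat.card {x : A // cst N • x = 0} ≤ cst N ^ d) :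
    Nat.card ↥(KN (A := A) hφ.mem_decompositionSubgroup) ≤ n ^ 2 * cst N ^ d := by
  refine card_KN_le_of_toZ hP hPN hsm hU hA hφ ?_ n d hinv htors
  rw [← map_mul, aeval_toZ, hpoly, map_zero]

/-- **(T-N) with the constant of (K-N-alg): for EVERY space `T` of global cocycles,
`# T ≤ n² c^d * # (T unramified at N)`.** -/
theorem card_le [Finite A] {P j : ℕ} (hP : P.Prime) (hPN : P ≠ N)
    (hsm : ∃ U ∈ levelsAll.sets, ∀ s ∈ U, ∀ a : A, A.ρ s a = a)
    (hU : ∀ s ∈ Iq N, ∀ a : A, A.ρ s (A.ρ s a) + a = 2 • A.ρ s a)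
    (hA : ∀ a : A, (P ^ j) • a = 0)
    {φ : GQ} (hφ : (padicPlace N).IsFrobeniusAt φ N)
    (hpoly : aeval (A.ρ φ * A.ρ φ) (pPoly N) = 0)
    (n d : ℕ) (hinv : Nat.card ↥(invN N A) ^ 2 ≤ n ^ 2 * Nat.card A)
    (htors : Nat.card {x : A // cst N • x = 0} ≤ cst N ^ d)
    (T : Submodule k (GQ → A)) (hT : T ≤ Z1g A) :
    Nat.card ↥T ≤ n ^ 2 * cst N ^ d * Nat.card ↥(unrAt N T) := by
  have h1 := card_le_mul hP hPN hsm hU hA hφ T hT
  have h2 := card_KN_le hP hPN hsm hU hA hφ hpoly n d hinv htors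
  calc Nat.card ↥T ≤ Nat.card ↥(unrAt N T) *
        Nat.card ↥(KN (A := A) hφ.mem_decompositionSubgroup) := h1
    _ ≤ Nat.card ↥(unrAt N T) * (n ^ 2 * cst N ^ d) := Nat.mul_le_mul_left _ h2
    _ = n ^ 2 * cst N ^ d * Nat.card ↥(unrAt N T) := mul_comm _ _

/-- finiteness: `T` is finite as soon as its part unramified at `N` is -/
theorem finite_of_finite [Finite A] {P j : ℕ} (hP : P.Prime) (hPN : P ≠ N)
    (hsm : ∃ U ∈ levelsAll.sets, ∀ s ∈ U, ∀ a : A, A.ρ s a = a)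
    (hU : ∀ s ∈ Iq N, ∀ a : A, A.ρ s (A.ρ s a) + a = 2 • A.ρ s a)
    (hA : ∀ a : A, (P ^ j) • a = 0)
    (T : Submodule k (GQ → A)) (hT : T ≤ Z1g A) [Finite ↥(unrAt N T)] : Finite ↥T :=
  finite_of_finite_unrAt hP hPN hsm hU hA T hT

/-- **the Selmer shape**: strict (`S`: unramified at every `q ≠ P`) versus `N`-relaxed (`Srel`:
unramified at every `q ≠ P, N`) cocycles with an arbitrary condition `L`:
`# Srel ≤ n² c^d * # S`. -/
theorem card_relaxed_le [Finite A] {P j : ℕ} (hP : P.Prime) (hPN : P ≠ N)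
    (hsm : ∃ U ∈ levelsAll.sets, ∀ s ∈ U, ∀ a : A, A.ρ s a = a)
    (hU : ∀ s ∈ Iq N, ∀ a : A, A.ρ s (A.ρ s a) + a = 2 • A.ρ s a)
    (hA : ∀ a : A, (P ^ j) • a = 0)
    {φ : GQ} (hφ : (padicPlace N).IsFrobeniusAt φ N)
    (hpoly : aeval (A.ρ φ * A.ρ φ) (pPoly N) = 0)
    (n d : ℕ) (hinv : Nat.card ↥(invN N A) ^ 2 ≤ n ^ 2 * Nat.card A)
    (htors : Nat.card {x : A // cst N • x = 0} ≤ cst N ^ d)
    (L S Srel : Submodule k (GQ → A))
    (hS : ∀ c, c ∈ S ↔ c ∈ Z1g A ∧ (∀ (q : ℕ) [Fact q.Prime], q ≠ P → IsUnramAt q c) ∧ c ∈ L)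
    (hSrel : ∀ c, c ∈ Srel ↔
      c ∈ Z1g A ∧ (∀ (q : ℕ) [Fact q.Prime], q ≠ P → q ≠ N → IsUnramAt q c) ∧ c ∈ L) :
    Nat.card ↥Srel ≤ n ^ 2 * cst N ^ d * Nat.card ↥S := by
  have h1 := Fermat.Agent.S15.D.RelaxN.card_relaxed_le hP hPN hsm hU hA hφ L S Srel hS hSrel
  have h2 := card_KN_le hP hPN hsm hU hA hφ hpoly n d hinv htors
  calc Nat.card ↥Srel ≤ Nat.card ↥S *
        Nat.card ↥(KN (A := A) hφ.mem_decompositionSubgroup) := h1
    _ ≤ Nat.card ↥S * (n ^ 2 * cst N ^ d) := Nat.mul_le_mul_left _ h2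
    _ = n ^ 2 * cst N ^ d * Nat.card ↥S := mul_comm _ _

end Main

end Fermat.Agent.S15.LocalN.Relax
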