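import Fermat.Agent.S15.LocalN.Jac
import Fermat.Agent.S15.KN.LevelOne

/-!
# PROJECT M (S15), (K-N-alg): the glue to main, hypothesis-free except for the invariants

`LocalN/Jac` with `Subsingleton (JZero 1)` discharged by `KN/LevelOne` (helper1).  For a piece `G`
of `J₀(N)(ℚ̄)`, `N` prime, killed by a power of `P ≠ N`, the only hypothesis left is
`hinv : # G^{I_N} ^ 2 ≤ n² * # G`.
-/

set_option autoImplicit false

namespace Fermat.Agent.S15.LocalN.JacMain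

open CategoryTheory Polynomial ModularCurve
open Fermat.Agent.CFT.LC Fermat.Agent.CFT.Bridge Fermat.Agent.CFT.LocalBridge
open Fermat.Agent.S56.Coh Fermat.Agent.S56.Tame
open Fermat.Agent.S15.D.RelaxN Fermat.Agent.S15.LocalN.Core Fermat.Agent.S15.LocalN.Relax
open Fermat.Agent.S15.LocalN.Jac

variable {N : ℕ} [NeZero N] [Fact N.Prime] {k : Type} [CommRing k] {G : Rep.{0} k GQ}
  (ι : G →+ JZero N) (hι : Function.Injective ι)
  (hιs : ∀ (σ : GQ) (g : G), ι (G.ρ σ g) = σ • ι g)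

include hι hιs in
/-- the polynomial hypothesis of `LocalN/Relax` -/
theorem hpoly {P j : ℕ} (hP : P.Prime) (hPN : P ≠ N) (hA : ∀ a : G, (P ^ j) • a = 0) {φ : GQ}
    (hφ : (padicPlace N).IsFrobeniusAt φ N) :
    aeval (G.ρ φ * G.ρ φ) (pPoly N) = 0 :=
  Fermat.Agent.S15.LocalN.Jac.hpoly ι hι hιs
    Fermat.Agent.S15.KN.LevelOne.subsingleton_jZero_one hP hPN hA hφ

include hι hιs in
/-- **(T-N) for a piece `G` of `J₀(N)(ℚ̄)`, `N` prime, killed by a power of `P ≠ N`.** -/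
theorem card_le {P j : ℕ} (hP : P.Prime) (hPN : P ≠ N) (hA : ∀ a : G, (P ^ j) • a = 0)
    (n : ℕ) (hinv : Nat.card ↥(invN N G) ^ 2 ≤ n ^ 2 * Nat.card G)
    (T : Submodule k (GQ → G)) (hT : T ≤ Z1g G) :
    Nat.card ↥T ≤ n ^ 2 * cst N ^ torsExp N * Nat.card ↥(unrAt N T) :=
  Fermat.Agent.S15.LocalN.Jac.card_le ι hι hιs
    Fermat.Agent.S15.KN.LevelOne.subsingleton_jZero_one hP hPN hA n hinv T hT

include hι hιs in
/-- **the Selmer shape**: `# Srel ≤ n² c^d * # S`. -/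
theorem card_relaxed_le {P j : ℕ} (hP : P.Prime) (hPN : P ≠ N)
    (hA : ∀ a : G, (P ^ j) • a = 0)
    (n : ℕ) (hinv : Nat.card ↥(invN N G) ^ 2 ≤ n ^ 2 * Nat.card G)
    (L S Srel : Submodule k (GQ → G))
    (hS : ∀ c, c ∈ S ↔ c ∈ Z1g G ∧ (∀ (q : ℕ) [Fact q.Prime], q ≠ P → IsUnramAt q c) ∧ c ∈ L)
    (hSrel : ∀ c, c ∈ Srel ↔
      c ∈ Z1g G ∧ (∀ (q : ℕ) [Fact q.Prime], q ≠ P → q ≠ N → IsUnramAt q c) ∧ c ∈ L) :
    Nat.card ↥Srel ≤ n ^ 2 * cst N ^ torsExp N * Nat.card ↥S :=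
  Fermat.Agent.S15.LocalN.Jac.card_relaxed_le ι hι hιs
    Fermat.Agent.S15.KN.LevelOne.subsingleton_jZero_one hP hPN hA n hinv L S Srel hS hSrel

end Fermat.Agent.S15.LocalN.JacMain
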