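import Fermat.Agent.S15.LocalN.Relax
import Fermat.Agent.S34.UOfCoreZ
import Fermat.Agent.S34.CoreZX0
import Fermat.Agent.S30.Arith.Smooth
import Fermat.Agent.S30.Descent.PhiDictThm
import Fermat.Agent.S35.NewSigmaX0
import Fermat.Agent.S35.FrobZOfGeneric

/-!
# PROJECT M (S15), (K-N-alg): the glue to main

`G : Rep k GQ` with a Galois-equivariant injective additive map `ι : G → J₀(N)(ℚ̄)` (any
Galois-stable piece of `J₀(N)(ℚ̄)` written as a `Rep`).  The hypotheses of `LocalN/Relax` for `G`,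
from main.
-/

set_option autoImplicit false

namespace Fermat.Agent.S15.LocalN.Jac

open CategoryTheory Polynomial ModularCurve
open Fermat.Agent.CFT.LC Fermat.Agent.CFT.Bridge Fermat.Agent.CFT.LocalBridge
open Fermat.Agent.S56.Coh Fermat.Agent.S56.Tame
open Fermat.Agent.S15.D.RelaxN Fermat.Agent.S15.LocalN.Core Fermat.Agent.S15.LocalN.Relax

/-- **(U) at prime level**: `(s - 1)² = 0` on `J₀(N)[P^∞]` for `s` in an inertia group at `N`
(main, S34) -/
theorem uHyp_prime {N P : ℕ} [NeZero N] (hN : N.Prime) (hP : P.Prime) (hPN : P ≠ N) :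
    Fermat.Agent.S34.UHyp.UHyp N P N := by
  haveI : Fact N.Prime := ⟨hN⟩
  haveI : NeZero (N / N) := ⟨by rw [Nat.div_self hN.pos]; exact one_ne_zero⟩
  have h2 : ¬ N ^ 2 ∣ N := fun h => by
    have h3 := Nat.le_of_dvd hN.pos h
    have h4 := hN.two_le
    nlinarith
  exact Fermat.Agent.S34.UOfCoreZ.uHyp_of_coreZHyp hN hP.ne_zero (dvd_refl N) h2
    (Fermat.Agent.S34.CoreZX0.coreZHyp (N / N) N P hP hPN)

/-- the exponent of the torsion count: the number of `cst N`-torsion points of `J₀(N)(ℚ̄)` -/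
noncomputable def torsExp (N : ℕ) [NeZero N] : ℕ := Nat.card {t : JZero N // cst N • t = 0}

section Emb

variable {N : ℕ} [NeZero N] {k : Type} [CommRing k] {G : Rep.{0} k GQ}
  (ι : G →+ JZero N) (hι : Function.Injective ι)
  (hιs : ∀ (σ : GQ) (g : G), ι (G.ρ σ g) = σ • ι g)

include hι in
/-- a piece of `J₀(N)(ℚ̄)` killed by `m ≠ 0` is finite -/
theorem finite_of_torsion {m : ℕ} (hm : m ≠ 0) (hG : ∀ g : G, m • g = 0) : Finite G := by
  have hfin := Fermat.Agent.S30.Descent.PhiDictThm.finite_torsion N hm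
  have : Finite ↥{y : JZero N | m • y = 0} := hfin
  refine Finite.of_injective
    (fun g : G => (⟨ι g, by
      change m • ι g = 0
      rw [← map_nsmul, hG, map_zero]⟩ : ↥{y : JZero N | m • y = 0})) ?_
  intro a b hab
  exact hι (congrArg Subtype.val hab)

include hι hιs in
/-- smoothness: a finite piece of `J₀(N)(ℚ̄)` is fixed pointwise by a level -/
theorem hsm [Finite G] : ∃ U ∈ levelsAll.sets, ∀ s ∈ U, ∀ a : G, G.ρ s a = a := by
  obtain ⟨E, hEfin, hE⟩ := Fermat.Agent.S30.Arith.Smooth.exists_finite_fixing_of_finite N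
    (s := Set.range ι) (Set.finite_range ι)
  have hEfin' : FiniteDimensional ℚ E := hEfin
  obtain ⟨U, hU, hUE⟩ := exists_levelAll_le E
  refine ⟨U, hU, fun s hs a => hι ?_⟩
  rw [hιs]
  exact hE s (fun x hx => (IntermediateField.mem_fixingSubgroup_iff E s).1 (hUE hs) x hx) (ι a)
    ⟨a, rfl⟩

include hι hιs in
/-- **(U)** for a piece of `J₀(N)(ℚ̄)`, `N` prime, killed by a power of `P ≠ N` -/
theorem hU [Fact N.Prime] {P j : ℕ} (hP : P.Prime) (hPN : P ≠ N)
    (hA : ∀ a : G, (P ^ j) • a = 0) :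
    ∀ s ∈ Iq N, ∀ a : G, G.ρ s (G.ρ s a) + a = 2 • G.ρ s a := by
  intro s hs a
  apply hι
  rw [map_add, map_nsmul, hιs, hιs]
  exact uHyp_prime (Fact.out : N.Prime) hP hPN (padicPlace N) (liesOverPrime_padicPlace N) s hs
    (ι a) ⟨j, by rw [← map_nsmul, hA, map_zero]⟩

include hι in
/-- the torsion count: `# G[c] ≤ c ^ torsExp N`, `c = cst N`, with an exponent depending on `N`
alone -/
theorem htors (hN : 2 ≤ N) : Nat.card {x : G // cst N • x = 0} ≤ cst N ^ torsExp N := by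
  have hc : 0 < cst N := cst_pos hN
  have hfin : Finite {t : JZero N // cst N • t = 0} :=
    Fermat.Agent.S30.Descent.PhiDictThm.finite_torsion N hc.ne'
  have h1 : Nat.card {x : G // cst N • x = 0} ≤ torsExp N := by
    refine Nat.card_le_card_of_injective
      (fun x => (⟨ι x.1, by rw [← map_nsmul, x.2, map_zero]⟩ : {t : JZero N // cst N • t = 0})) ?_
    intro a b hab
    exact Subtype.ext (hι (congrArg Subtype.val hab))
  rcases Nat.eq_or_lt_of_le (Nat.succ_le_of_lt hc) with h | h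
  · have h' : cst N = 1 := h.symm
    have hsub : Subsingleton {x : G // cst N • x = 0} := by
      have key : ∀ x : G, cst N • x = 0 → x = 0 := fun x hx => by
        rw [h', one_smul] at hx
        exact hx
      exact ⟨fun a b => Subtype.ext ((key a.1 a.2).trans (key b.1 b.2).symm)⟩
    calc Nat.card {x : G // cst N • x = 0} ≤ 1 := Finite.card_le_one_iff_subsingleton.2 hsub
      _ ≤ cst N ^ torsExp N := Nat.one_le_pow _ _ hc
  · exact h1.trans (Nat.lt_pow_self h).le

end Emb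

/-! ### The Frobenius polynomial -/

section Poly

open Fermat.Agent.S35.Chain Fermat.Agent.S35.LinAlg Fermat.Agent.S35.OfDict
open Fermat.Agent.S35.DegeneracyHecke

/-- `(X - 1)² (X - N²)` composed with `X²` is the Frobenius polynomial of S35 -/
theorem pPoly_comp (N : ℕ) : (pPoly N).comp (X ^ 2) = frobPolyZ N := by
  unfold pPoly frobPolyZ frobPoly
  rw [mul_comp, pow_comp, sub_comp, sub_comp, X_comp, one_comp, C_comp]

/-- polynomials in intertwined endomorphisms are intertwined -/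
theorem aeval_intertwine {k M J : Type*} [CommRing k] [AddCommGroup M] [Module k M]
    [AddCommGroup J] (ι : M →+ J) (f : Module.End k M) (S : AddMonoid.End J)
    (h : ∀ x, ι (f x) = S (ι x)) (p : ℤ[X]) (x : M) :
    ι (aeval f p x) = aeval S p (ι x) := by
  induction p using Polynomial.induction_on generalizing x with
  | C a =>
    rw [aeval_C, aeval_C, Algebra.algebraMap_eq_smul_one, Algebra.algebraMap_eq_smul_one,
      LinearMap.smul_apply, Module.End.one_apply, map_zsmul]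
    rfl
  | add p q hp hq =>
    rw [map_add, map_add, LinearMap.add_apply, map_add, hp, hq]
    rfl
  | monomial n a ih =>
    rw [pow_succ, ← mul_assoc, map_mul (aeval f) (C a * X ^ n) X,
      map_mul (aeval S) (C a * X ^ n) X, aeval_X, aeval_X, Module.End.mul_apply, ih, h]
    rfl

/-- **(NEW-σ) at prime level**: `(φ² - 1)² (φ² - N²) = 0` on `J₀(N)[P^∞]` for a Frobenius lift
`φ` at `N` (main, S35 at `M' = 1`, transported along `1 * N = N`) -/
theorem polyEnd_eq_zero (h1 : Subsingleton (JZero 1)) {N P : ℕ} (hN : N.Prime) (hP : P.Prime)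
    (hPN : P ≠ N) (M : ℕ) [NeZero M] (hM : 1 * N = M)
    (A : ValuationSubring (AlgebraicClosure ℚ)) (hA : A.LiesOverPrime N) {φ : GQ}
    (hφ : A.IsFrobeniusAt φ N) (y : JZero M) (hy : ∃ n : ℕ, P ^ n • y = 0) :
    polyEnd φ (frobPolyZ N) y = 0 := by
  subst hM
  have : NeZero N := ⟨hN.ne_zero⟩
  have hN1 : ¬ N ∣ 1 := fun h => hN.one_lt.ne' (Nat.dvd_one.1 h)
  exact Fermat.Agent.S35.NewSigmaX0.newSigma_of_frobZ (fun M' q _ _ _ _ hp _ hqp =>
      Fermat.Agent.S35.FrobZOfGeneric.frobZHyp_of_generic hp hqp.symm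
        (Fermat.Agent.S34.CoreZX0.genericX0_all M' q))
    1 N P hN hP hN1 hPN.symm A hA φ hφ y hy (Subsingleton.elim _ _) (Subsingleton.elim _ _)

variable {N : ℕ} [NeZero N] {k : Type} [CommRing k] {G : Rep.{0} k GQ}
  (ι : G →+ JZero N) (hι : Function.Injective ι)
  (hιs : ∀ (σ : GQ) (g : G), ι (G.ρ σ g) = σ • ι g)

include hι hιs in
/-- **the polynomial hypothesis** of `LocalN/Relax` for a piece of `J₀(N)(ℚ̄)`, `N` prime, killed
by a power of `P ≠ N` -/
theorem hpoly [Fact N.Prime] (h1 : Subsingleton (JZero 1)) {P j : ℕ} (hP : P.Prime)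
    (hPN : P ≠ N) (hA : ∀ a : G, (P ^ j) • a = 0) {φ : GQ}
    (hφ : (padicPlace N).IsFrobeniusAt φ N) :
    aeval (G.ρ φ * G.ρ φ) (pPoly N) = 0 := by
  refine LinearMap.ext fun g => hι ?_
  have e : aeval (G.ρ φ * G.ρ φ) (pPoly N) = aeval (G.ρ φ) (frobPolyZ N) := by
    rw [← pPoly_comp, aeval_comp, map_pow, aeval_X, pow_two]
  rw [e, LinearMap.zero_apply, map_zero,
    aeval_intertwine ι (G.ρ φ) (DistribMulAction.toAddMonoidEnd GQ (JZero N) φ)
      (fun x => hιs φ x)]
  exact polyEnd_eq_zero h1 (Fact.out : N.Prime) hP hPN N (Nat.one_mul N) (padicPlace N)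
    (liesOverPrime_padicPlace N) hφ (ι g) ⟨j, by rw [← map_nsmul, hA, map_zero]⟩

end Poly

/-! ### The instantiated statements -/

section Main

variable {N : ℕ} [NeZero N] [Fact N.Prime] {k : Type} [CommRing k] {G : Rep.{0} k GQ}
  (ι : G →+ JZero N) (hι : Function.Injective ι)
  (hιs : ∀ (σ : GQ) (g : G), ι (G.ρ σ g) = σ • ι g)

include hι hιs in
/-- **(T-N) for a piece `G` of `J₀(N)(ℚ̄)`, `N` prime, killed by a power of `P ≠ N`**: for every
space `T` of global cocycles, `# T ≤ n² c^d * # (T unramified at N)`, with `c`, `d` depending on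
`N` alone; the only hypothesis left is the bound on the inertia invariants. -/
theorem card_le (h1 : Subsingleton (JZero 1)) {P j : ℕ} (hP : P.Prime) (hPN : P ≠ N)
    (hA : ∀ a : G, (P ^ j) • a = 0)
    (n : ℕ) (hinv : Nat.card ↥(invN N G) ^ 2 ≤ n ^ 2 * Nat.card G)
    (T : Submodule k (GQ → G)) (hT : T ≤ Z1g G) :
    Nat.card ↥T ≤ n ^ 2 * cst N ^ torsExp N * Nat.card ↥(unrAt N T) := by
  have hN : N.Prime := Fact.out
  have : Finite G := finite_of_torsion ι hι (pow_ne_zero j hP.ne_zero) hA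
  obtain ⟨φ, hφ⟩ := Fermat.Agent.Lib.FrobeniusExists.exists_isFrobeniusAt_algebraicClosure
    (padicPlace N) hN (liesOverPrime_padicPlace N)
  exact Fermat.Agent.S15.LocalN.Relax.card_le hP hPN (hsm ι hι hιs) (hU ι hι hιs hP hPN hA) hA hφ
    (hpoly ι hι hιs h1 hP hPN hA hφ) n (torsExp N) hinv (htors ι hι hN.two_le) T hT

include hι hιs in
/-- finiteness: `T` is finite as soon as its part unramified at `N` is -/
theorem finite_of_finite {P j : ℕ} (hP : P.Prime) (hPN : P ≠ N)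
    (hA : ∀ a : G, (P ^ j) • a = 0)
    (T : Submodule k (GQ → G)) (hT : T ≤ Z1g G) [Finite ↥(unrAt N T)] : Finite ↥T := by
  have : Finite G := finite_of_torsion ι hι (pow_ne_zero j hP.ne_zero) hA
  exact Fermat.Agent.S15.LocalN.Relax.finite_of_finite hP hPN (hsm ι hι hιs)
    (hU ι hι hιs hP hPN hA) hA T hT

include hι hιs in
/-- **the Selmer shape**: strict (`S`) versus `N`-relaxed (`Srel`) cocycles with an arbitrary
condition `L`: `# Srel ≤ n² c^d * # S`. -/
theorem card_relaxed_le (h1 : Subsingleton (JZero 1)) {P j : ℕ} (hP : P.Prime) (hPN : P ≠ N)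
    (hA : ∀ a : G, (P ^ j) • a = 0)
    (n : ℕ) (hinv : Nat.card ↥(invN N G) ^ 2 ≤ n ^ 2 * Nat.card G)
    (L S Srel : Submodule k (GQ → G))
    (hS : ∀ c, c ∈ S ↔ c ∈ Z1g G ∧ (∀ (q : ℕ) [Fact q.Prime], q ≠ P → IsUnramAt q c) ∧ c ∈ L)
    (hSrel : ∀ c, c ∈ Srel ↔
      c ∈ Z1g G ∧ (∀ (q : ℕ) [Fact q.Prime], q ≠ P → q ≠ N → IsUnramAt q c) ∧ c ∈ L) :
    Nat.card ↥Srel ≤ n ^ 2 * cst N ^ torsExp N * Nat.card ↥S := by
  have hN : N.Prime := Fact.out
  have : Finite G := finite_of_torsion ι hι (pow_ne_zero j hP.ne_zero) hA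
  obtain ⟨φ, hφ⟩ := Fermat.Agent.Lib.FrobeniusExists.exists_isFrobeniusAt_algebraicClosure
    (padicPlace N) hN (liesOverPrime_padicPlace N)
  exact Fermat.Agent.S15.LocalN.Relax.card_relaxed_le hP hPN (hsm ι hι hιs)
    (hU ι hι hιs hP hPN hA) hA hφ (hpoly ι hι hιs h1 hP hPN hA hφ) n (torsExp N) hinv
    (htors ι hι hN.two_le) L S Srel hS hSrel

include hι hιs in
/-- finiteness of the `N`-relaxed Selmer cocycles from finiteness of the strict ones -/
theorem finite_relaxed {P j : ℕ} (hP : P.Prime) (hPN : P ≠ N)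
    (hA : ∀ a : G, (P ^ j) • a = 0)
    (L S Srel : Submodule k (GQ → G))
    (hS : ∀ c, c ∈ S ↔ c ∈ Z1g G ∧ (∀ (q : ℕ) [Fact q.Prime], q ≠ P → IsUnramAt q c) ∧ c ∈ L)
    (hSrel : ∀ c, c ∈ Srel ↔
      c ∈ Z1g G ∧ (∀ (q : ℕ) [Fact q.Prime], q ≠ P → q ≠ N → IsUnramAt q c) ∧ c ∈ L)
    [Finite ↥S] : Finite ↥Srel := by
  have : Finite G := finite_of_torsion ι hι (pow_ne_zero j hP.ne_zero) hA
  exact Fermat.Agent.S15.D.RelaxN.finite_relaxed hP hPN (hsm ι hι hιs)
    (hU ι hι hιs hP hPN hA) hA L S Srel hS hSrel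

end Main

end Fermat.Agent.S15.LocalN.Jac
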